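import Fermat.Agent.S18.Mod.H216.NodeJ
import Fermat.Agent.S18.H24.GaussFields
import Fermat.Agent.S18.H24.Finite
import Fermat.Agent.S18.H456.ModRes
import Fermat.Agent.S18.H456.ModCoord
import Fermat.Agent.S18.MOD.H516.GaussSep
import Fermat.Agent.S18.H576.Sep
import Fermat.Agent.S18.H997.BranchField
import Fermat.Agent.S18.H107.M3T

/-!
# S18 / node_mod — FINAL WIRING (helper24, MOD-ASM)

`node_mod : ¬ ℓ ∣ M → A.LiesOverPrime ℓ → Mod.GoodModelStatement M ℓ A`, the exact type of
`Integ.node_mod` in helper18's skeleton v4c, assembled from the parts on main: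

| part | source |
|---|---|
| G-R (DVR `A ∩ E`, uniformiser, perfect residue field) | `H456.ModR`, `H456.ModRes`, `H602.DVR` |
| G-FLD (fields, coordinate, finiteness)                | `H456.ModBasic/ModFields/ModCoord`, `H24.Finite` |
| G-V (Gauss valuation ring)                            | `H24.GaussFields` |
| G-QEP at `x = j`                                      | `Mod.H216.NodeJ` |
| G-SEP at `x = j`                                      | `H576.Sep` |
| G-BR (all coordinates)                                | `H997.BranchField` |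
| M3-T (transfer `j ↦ t₂, t₃`, `ℓ = 2, 3`)              | `H107.M3T` |
| family/directedness                                   | `Mod.H216.Family` |
-/

set_option autoImplicit false

noncomputable section

namespace Fermat.Agent.S18.H24

open ModularCurve AlgebraicCurve HahnSeries Fermat.Agent.S18 Fermat.Agent.S18.Mod

variable (M : ℕ) [NeZero M] {ℓ : ℕ} (A : ValuationSubring Qb) (E : IntermediateField ℚ Qb)

/-- G-R at the concrete objects: a uniformiser of `A ∩ E` and the `R`-fields. -/
theorem exists_partR (hℓ : ℓ.Prime) (hA : A.LiesOverPrime ℓ) [FiniteDimensional ℚ E] :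
    ∃ w : Om M, Mod.H216.PartR (Ec M E) (Rc M A E) w := by
  haveI : IsDiscreteValuationRing (H602.RE A E) :=
    H602.isDiscreteValuationRing_RE A E hℓ.ne_zero hA
  obtain ⟨w, hw⟩ := H456.exists_isUnif (M := M) (A := A) (E := E)
  exact ⟨w, H456.field_R_le M A E, H456.field_R_total M A E, hw.mem, hw.ne_zero, hw.inv_not_mem,
    hw.gen, hw.discrete, H456.field_residue_perfect (M := M) A E hℓ hA hw⟩

/-- The `j`-model without the branch fields, for every `ℓ ∤ M` (also `ℓ = 2, 3`). -/
theorem baseModel_j [Fact ℓ.Prime] (hℓM : ¬ ℓ ∣ M) (hA : A.LiesOverPrime ℓ)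
    [FiniteDimensional ℚ E] {w : Om M} (hR : Mod.H216.PartR (Ec M E) (Rc M A E) w) :
    H107.BaseModel107 (Lc M) (Ec M E) (Fc M E) (Rc M A E) (Mod.H216.Vc M A E) w (jOm M) := by
  have hℓ : ℓ.Prime := Fact.out
  have hV := gv_fields (M := M) (A := A) (E := E) (Mod.H216.Vc M A E) (Mod.H216.coe_Vc M A E)
    hR.w_mem hR.w_ne_zero hR.w_inv_not_mem hR.w_gen hR.w_discrete (H456.hasIntExp_jOm M)
  have hQ := Mod.H216.partQepStatement_j A hℓM hA E inferInstance w hR
  exact
    { charZero := H456.field_charZero M
      R_le := hR.R_le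
      R_total := hR.R_total
      w_mem := hR.w_mem
      w_ne_zero := hR.w_ne_zero
      w_inv_not_mem := hR.w_inv_not_mem
      w_gen := hR.w_gen
      w_discrete := hR.w_discrete
      residue_perfect := hR.residue_perfect
      E_le_L := H456.field_E_le_L M E
      E_le_F := H456.field_E_le_F M E
      L_algebraic := H456.field_L_algebraic M E
      L_algClosed := H456.field_L_algClosed M
      E_closed_in_F := H456.field_E_closed_in_F M E
      compositum := H456.field_compositum M E
      x_mem := H456.mem_Fc_of_hasIntExp M E (H456.hasIntExp_jOm M)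
      x_transcendental := H456.transcendental_of_hasIntExp M (H456.hasIntExp_jOm M)
      finite := field_finite_j M E
      V_le := hV.1
      V_total := hV.2.1
      R_le_V := hV.2.2.1
      w_inv_not_mem_V := hV.2.2.2.2.1
      V_gen := hV.2.2.2.2.2.1
      x_mem_V := hV.2.2.2.1
      gauss := hV.2.2.2.2.2.2
      qep_fin := hQ.qep_fin
      qep_inf := hQ.qep_inf
      separable := H576.field_separable_subring M hℓ hℓM hA E (Mod.H216.Vc M A E)
        (Mod.H216.coe_Vc M A E) hR.w_mem hR.w_gen }

/-- `GoodAt` for every admissible coordinate. -/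
theorem goodAt_of_isCoordinate [Fact ℓ.Prime] (hℓM : ¬ ℓ ∣ M) (hA : A.LiesOverPrime ℓ)
    {x : Om M} {S : Finset (Om M)} (hx : IsCoordinate M ℓ x S) : Mod.H216.GoodAt M A x S := by
  have hℓ : ℓ.Prime := Fact.out
  intro E hE
  haveI := hE
  obtain ⟨w, hR⟩ := exists_partR M A E hℓ hA
  have hb := baseModel_j M A E hℓM hA hR
  refine ⟨Mod.H216.Vc M A E, w, Mod.H216.coe_Vc M A E, ?_⟩
  by_cases h5 : 5 ≤ ℓ
  · have hxj : x = jOm M := by
      rcases hx with ⟨-, h, -⟩ | ⟨h | h, -⟩
      · exact h
      · omega
      · omega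
    have hB := H997.branchFields M hℓ A hA x S hx E
    subst hxj
    exact hb.toGoodModel S hB.1 hB.2.1 hB.2.2.1 hB.2.2.2
  · have hV := gv_fields_of_isCoordinate (M := M) (A := A) (E := E) (Mod.H216.Vc M A E)
      (Mod.H216.coe_Vc M A E) hR.w_mem hR.w_ne_zero hR.w_inv_not_mem hR.w_gen hR.w_discrete hx
    exact H107.goodModel_of_isCoordinate107 M A hA h5 hx E hb (H456.field_x_mem M E hx)
      hV.2.2.2.1 hV.2.2.2.2.2.2

/-- **NODE MOD** (exact type of `Integ.node_mod`, skeleton v4c): the concrete objects at level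
`M` form a good family, for every admissible coordinate. -/
theorem node_mod {ℓ : ℕ} [Fact ℓ.Prime] (hℓM : ¬ ℓ ∣ M)
    (A : ValuationSubring Qb) (hA : A.LiesOverPrime ℓ) : Mod.GoodModelStatement M ℓ A :=
  Mod.H216.goodModelStatement_of_goodAt M ℓ A
    (fun _ _ hx => goodAt_of_isCoordinate M A hℓM hA hx)

end Fermat.Agent.S18.H24
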