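import Fermat.Agent.S18.Integ.Final
import Fermat.Agent.S18.Mod.H216.NodeMod
import Fermat.Agent.S18.H438.NodeAlg

/-!
# S18 — the hub `CoreStatement N A m`, UNCONDITIONAL (helper24)

For downstream rows (S17, S37, S19): the Kummer-type core of S18 at level `N`, for every prime
`ℓ ∤ N`, every valuation subring `A ⊆ Q̄` over `ℓ` and every prime `m ≠ ℓ`:

    two `A`-integral series in `F_N` with the same nonzero reduction whose quotient has divisor
    divisible by `m` differ by a constant times an `m`-th power.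

= `Integ.coreStatement_of_mod_alg` (helper18) + `Mod.H216.node_mod` + `H438.node_alg`.
-/

set_option autoImplicit false

noncomputable section

namespace Fermat.Agent.S18.H24

open ModularCurve AlgebraicCurve

/-- **CORE(N, A, m)**, unconditional (prime `m`, `ℓ ∤ m`, `ℓ ∤ N`). -/
theorem coreStatement (N : ℕ) [NeZero N] {ℓ : ℕ} [Fact ℓ.Prime] (hℓN : ¬ ℓ ∣ N)
    (A : ValuationSubring Qb) (hA : A.LiesOverPrime ℓ) (m : ℕ) (hmp : m.Prime) (hm : ¬ ℓ ∣ m) :
    CoreStatement N A m := by
  haveI : NeZero (Integ.levelM N ℓ) := ⟨Integ.levelM_ne_zero N ℓ⟩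
  exact Integ.coreStatement_of_mod_alg N hℓN A hA m hmp hm
    (Mod.H216.node_mod (Integ.levelM N ℓ) (Integ.not_dvd_levelM N hℓN) A hA)
    (H438.node_alg (Integ.levelM N ℓ))

end Fermat.Agent.S18.H24
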