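import Fermat.Agent.S18.Alg.Spec

/-!
# S18 / MOD-ASM (helper24) — elementary API for `Alg.polyRing R x ⊆ Ω` and integrality over it

Mathlib-only.  `polyRing R x = Subring.closure (R ∪ {x})` is the subring `R[x]` of the field `Ω`.

* `mem_polyRing_iff`              : `z ∈ R[x] ↔ z = p(x)` for some `p ∈ R[X]`;
* `isIntegral_polyRing_iff`       : `c` integral over `R[x]` iff it is a root of a monic polynomial
                                    over `Ω` with coefficients in `R[x]`;
* `exists_pow_mul_mem_polyRing`   : if `x·y^a ∈ R[y]` then every `z ∈ R[x]` has `z·y^k ∈ R[y]`, `k ≫ 0`;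
* `exists_pow_mul_isIntegral`     : if `x·y^a ∈ R[y]` and `c` is integral over `R[x]`, then `y^k·c` is
                                    integral over `R[y]` for all `k ≥ k₀`;
* `isIntegral_polyRing_trans`     : `y` integral over `R[x]`, `b` integral over `R[y]` ⟹ `b` integral
                                    over `R[x]`.
-/

set_option autoImplicit false

namespace Fermat.Agent.S18.H24

open Fermat.Agent.S18.Alg Polynomial

variable {Ω : Type*} [Field Ω]

theorem le_polyRing (R : Subring Ω) (x : Ω) : R ≤ polyRing R x :=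
  fun _ hr => Subring.subset_closure (Or.inl hr)

theorem self_mem_polyRing (R : Subring Ω) (x : Ω) : x ∈ polyRing R x :=
  Subring.subset_closure (Or.inr rfl)

theorem polyRing_le {R S : Subring Ω} {x : Ω} (hR : R ≤ S) (hx : x ∈ S) : polyRing R x ≤ S :=
  (Subring.closure_le).mpr (by
    rintro z (hz | hz)
    · exact hR hz
    · rw [Set.mem_singleton_iff] at hz
      rw [hz]; exact hx)

theorem polyRing_mono {R S : Subring Ω} (hR : R ≤ S) (x : Ω) : polyRing R x ≤ polyRing S x :=
  polyRing_le (hR.trans (le_polyRing S x)) (self_mem_polyRing S x)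

theorem eval₂_mem_polyRing (R : Subring Ω) (x : Ω) (p : Polynomial R) :
    p.eval₂ R.subtype x ∈ polyRing R x := by
  rw [Polynomial.eval₂_eq_sum_range]
  refine Subring.sum_mem _ fun i _ => ?_
  exact Subring.mul_mem _ (le_polyRing R x (p.coeff i).2)
    (Subring.pow_mem _ (self_mem_polyRing R x) _)

theorem mem_polyRing_iff {R : Subring Ω} {x z : Ω} :
    z ∈ polyRing R x ↔ ∃ p : Polynomial R, z = p.eval₂ R.subtype x := by
  constructor
  · intro hz
    induction hz using Subring.closure_induction with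
    | mem z hz =>
      rcases hz with hz | hz
      · exact ⟨C ⟨z, hz⟩, by simp⟩
      · rw [Set.mem_singleton_iff] at hz
        exact ⟨X, by simp [hz]⟩
    | zero => exact ⟨0, by simp⟩
    | one => exact ⟨1, by simp⟩
    | add a b _ _ ha hb =>
      obtain ⟨p, rfl⟩ := ha
      obtain ⟨q, rfl⟩ := hb
      exact ⟨p + q, by simp [Polynomial.eval₂_add]⟩
    | neg a _ ha =>
      obtain ⟨p, rfl⟩ := ha
      exact ⟨-p, by simp [Polynomial.eval₂_neg]⟩
    | mul a b _ _ ha hb =>
      obtain ⟨p, rfl⟩ := ha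
      obtain ⟨q, rfl⟩ := hb
      exact ⟨p * q, by simp [Polynomial.eval₂_mul]⟩
  · rintro ⟨p, rfl⟩
    exact eval₂_mem_polyRing R x p

/-- Integrality over a subring `S` of `Ω` in terms of polynomials over `Ω`. -/
theorem isIntegral_subring_iff {S : Subring Ω} {c : Ω} :
    IsIntegral S c ↔ ∃ P : Polynomial Ω, P.Monic ∧ (∀ i, P.coeff i ∈ S) ∧ P.eval c = 0 := by
  constructor
  · rintro ⟨p, hp, hpc⟩
    refine ⟨p.map S.subtype, hp.map _, fun i => ?_, ?_⟩
    · rw [coeff_map]; exact (p.coeff i).2
    · rw [eval_map]; exact hpc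
  · rintro ⟨P, hP, hcoeff, hPc⟩
    have hl : P ∈ Polynomial.lifts S.subtype := by
      rw [Polynomial.lifts_iff_coeff_lifts]
      intro i
      exact ⟨⟨P.coeff i, hcoeff i⟩, rfl⟩
    obtain ⟨q, hq, -, hqm⟩ := Polynomial.lifts_and_natDegree_eq_and_monic hl hP
    refine ⟨q, hqm, ?_⟩
    have : eval₂ S.subtype c q = eval c (q.map S.subtype) := (eval_map _ _).symm
    rw [show (algebraMap S Ω) = S.subtype from rfl, this, hq, hPc]

theorem isIntegral_mono {S T : Subring Ω} (h : S ≤ T) {c : Ω} (hc : IsIntegral S c) :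
    IsIntegral T c := by
  rw [isIntegral_subring_iff] at hc ⊢
  obtain ⟨P, hP, hcoeff, hPc⟩ := hc
  exact ⟨P, hP, fun i => h (hcoeff i), hPc⟩

theorem isIntegral_of_mem {S : Subring Ω} {c : Ω} (hc : c ∈ S) : IsIntegral S c :=
  isIntegral_algebraMap (R := S) (A := Ω) (x := ⟨c, hc⟩)

/-- If `x · y^a ∈ R[y]`, every element of `R[x]` is of the form `(element of R[y]) / y^k`. -/
theorem exists_pow_mul_mem_polyRing {R : Subring Ω} {x y : Ω} {a : ℕ}
    (hxy : x * y ^ a ∈ polyRing R y) {z : Ω} (hz : z ∈ polyRing R x) :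
    ∃ k : ℕ, ∀ k' : ℕ, k ≤ k' → z * y ^ k' ∈ polyRing R y := by
  have hy : y ∈ polyRing R y := self_mem_polyRing R y
  -- it suffices to find one exponent
  suffices h : ∃ k : ℕ, z * y ^ k ∈ polyRing R y by
    obtain ⟨k, hk⟩ := h
    refine ⟨k, fun k' hk' => ?_⟩
    obtain ⟨d, rfl⟩ := Nat.exists_eq_add_of_le hk'
    rw [pow_add, ← mul_assoc]
    exact Subring.mul_mem _ hk (Subring.pow_mem _ hy _)
  induction hz using Subring.closure_induction with
  | mem z hz =>
    rcases hz with hz | hz
    · exact ⟨0, by simpa using le_polyRing R y hz⟩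
    · rw [Set.mem_singleton_iff] at hz
      exact ⟨a, by rw [hz]; exact hxy⟩
  | zero => exact ⟨0, by simp⟩
  | one => exact ⟨0, by simp⟩
  | add u v _ _ hu hv =>
    obtain ⟨k, hk⟩ := hu
    obtain ⟨l, hl⟩ := hv
    refine ⟨k + l, ?_⟩
    have : (u + v) * y ^ (k + l) = u * y ^ k * y ^ l + v * y ^ l * y ^ k := by
      rw [pow_add]; ring
    rw [this]
    exact Subring.add_mem _ (Subring.mul_mem _ hk (Subring.pow_mem _ hy _))
      (Subring.mul_mem _ hl (Subring.pow_mem _ hy _))
  | neg u _ hu =>
    obtain ⟨k, hk⟩ := hu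
    exact ⟨k, by rw [neg_mul]; exact Subring.neg_mem _ hk⟩
  | mul u v _ _ hu hv =>
    obtain ⟨k, hk⟩ := hu
    obtain ⟨l, hl⟩ := hv
    refine ⟨k + l, ?_⟩
    have : u * v * y ^ (k + l) = u * y ^ k * (v * y ^ l) := by
      rw [pow_add]; ring
    rw [this]
    exact Subring.mul_mem _ hk hl

/-- If `x · y^a ∈ R[y]` and `c` is integral over `R[x]`, then `y^k · c` is integral over `R[y]`
for all large `k`. -/
theorem exists_pow_mul_isIntegral {R : Subring Ω} {x y : Ω} {a : ℕ}
    (hxy : x * y ^ a ∈ polyRing R y) {c : Ω} (hc : IsIntegral (polyRing R x) c) :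
    ∃ k : ℕ, ∀ k' : ℕ, k ≤ k' → IsIntegral (polyRing R y) (y ^ k' * c) := by
  have hy : y ∈ polyRing R y := self_mem_polyRing R y
  rw [isIntegral_subring_iff] at hc
  obtain ⟨P, hP, hcoeff, hPc⟩ := hc
  -- a common exponent for all coefficients
  have hex : ∀ i, ∃ k : ℕ, ∀ k' : ℕ, k ≤ k' → P.coeff i * y ^ k' ∈ polyRing R y := fun i =>
    exists_pow_mul_mem_polyRing hxy (hcoeff i)
  choose κ hκ using hex
  set K := (Finset.range (P.natDegree + 1)).sup κ with hK
  refine ⟨K, fun k' hk' => ?_⟩
  rw [isIntegral_subring_iff]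
  refine ⟨P.scaleRoots (y ^ k'), (Polynomial.monic_scaleRoots_iff _).mpr hP, fun i => ?_, ?_⟩
  · rw [Polynomial.coeff_scaleRoots]
    by_cases hi : i < P.natDegree
    · have hpos : 0 < P.natDegree - i := Nat.sub_pos_of_lt hi
      obtain ⟨d, hd⟩ : ∃ d, P.natDegree - i = d + 1 := ⟨P.natDegree - i - 1, by omega⟩
      rw [hd, pow_succ, ← mul_assoc]
      have h1 : P.coeff i * (y ^ k') ^ d * y ^ k' = P.coeff i * y ^ k' * (y ^ k') ^ d := by ring
      rw [h1]
      refine Subring.mul_mem _ (hκ i k' ?_) (Subring.pow_mem _ (Subring.pow_mem _ hy _) _)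
      refine le_trans ?_ hk'
      exact Finset.le_sup (f := κ) (Finset.mem_range.mpr (by omega))
    · rcases Nat.lt_or_ge P.natDegree i with h | h
      · rw [Polynomial.coeff_eq_zero_of_natDegree_lt h, zero_mul]
        exact Subring.zero_mem _
      · have hieq : i = P.natDegree := by omega
        rw [hieq, Nat.sub_self, pow_zero, mul_one, hP.coeff_natDegree]
        exact Subring.one_mem _
  · have := Polynomial.scaleRoots_eval₂_mul (p := P) (f := RingHom.id Ω) (r := c) (s := y ^ k')
    simp only [Polynomial.eval₂_id, RingHom.id_apply] at this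
    rw [this, hPc, mul_zero]

/-- Transitivity of integrality through `R[y]`. -/
theorem isIntegral_polyRing_trans {R : Subring Ω} {x y b : Ω}
    (hy : IsIntegral (polyRing R x) y) (hb : IsIntegral (polyRing R y) b) :
    IsIntegral (polyRing R x) b := by
  -- the integral closure of `R[x]` in `Ω`, as a subring
  let IC : Subring Ω := (integralClosure (polyRing R x) Ω).toSubring
  have hIC : ∀ z, z ∈ IC ↔ IsIntegral (polyRing R x) z := fun z => Iff.rfl
  have hRy : polyRing R y ≤ IC := by
    refine polyRing_le (fun r hr => ?_) ((hIC y).mpr hy)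
    exact (hIC r).mpr (isIntegral_of_mem (le_polyRing R x hr))
  have h1 : IsIntegral IC b := isIntegral_mono hRy hb
  -- `IC` is integrally closed in `Ω`
  have h2 : IsIntegral (integralClosure (polyRing R x) Ω) b := h1
  exact isIntegral_trans (A := integralClosure (polyRing R x) Ω) b h2

end Fermat.Agent.S18.H24
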