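import Fermat.Agent.S18.H24.PolyRing
import Fermat.Agent.S18.H393.LocalFree

/-!
# S18 / MOD-ASM (helper24) — QEP TRANSFER between charts (abstract, Mathlib-only)

In the language of the frozen `S18/Alg/Spec.lean` (`polyRing`, `chart`), for sub-objects of a field
`Ω`:  the `q`-expansion principle

    QEP(x) :  b ∈ chart Fc R x,  b/w ∈ V  ⟹  b/w ∈ chart Fc R x

at ONE coordinate `x` implies QEP at every coordinate `y` such that

* (`h1`) every `b` integral over `R[y]` has `y^{-D} b` integral over `R[x]` for some `D` with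
  `y^{-D} ∈ V`,
* (`h2`) every `c` integral over `R[x]` has `y^k c` integral over `R[y]` for `k ≫ 0`,
* Lemma M holds in `R[y]` (`R` integrally closed, `w` prime in `R`, `y` transcendental over `R`).

Consequences (`qep_inv`, `qep_of_integral`):
* `QEP(x) ⟹ QEP(x⁻¹)`                      (needs `x ∈ V`);
* `QEP(x) ⟹ QEP(t)` if `t` is integral over `R[x]` and `x·t^a ∈ R[t]`
  (e.g. `x = j`, `t = t₂`: `j t² = (t+256)³`; `t = t₂⁻¹` if `2 ∈ Rˣ`: `j·s = (1+256 s)³`;
   `t = t₃`, `t₃⁻¹` if `3 ∈ Rˣ`).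

So the only modular input for `qep_fin`/`qep_inf` of `GoodModel` at `x ∈ {j, t₂, t₃}` is QEP at `j`.
-/

set_option autoImplicit false

namespace Fermat.Agent.S18.H24

open Fermat.Agent.S18.Alg Polynomial

variable {Ω : Type*} [Field Ω]

/-! ### `R[y] ≃ R[X]` for transcendental `y` -/

/-- Evaluation at `y`, as a ring hom `R[X] → R[y]`. -/
noncomputable def evalPolyRing (R : Subring Ω) (y : Ω) : Polynomial R →+* polyRing R y :=
  (Polynomial.eval₂RingHom R.subtype y).codRestrict (polyRing R y)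
    (fun p => eval₂_mem_polyRing R y p)

theorem coe_evalPolyRing (R : Subring Ω) (y : Ω) (p : Polynomial R) :
    ((evalPolyRing R y p : polyRing R y) : Ω) = p.eval₂ R.subtype y := rfl

theorem evalPolyRing_surjective (R : Subring Ω) (y : Ω) :
    Function.Surjective (evalPolyRing R y) := by
  rintro ⟨z, hz⟩
  obtain ⟨p, hp⟩ := mem_polyRing_iff.mp hz
  exact ⟨p, Subtype.ext hp.symm⟩

theorem evalPolyRing_injective (R : Subring Ω) {y : Ω} (hy : Transcendental R y) :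
    Function.Injective (evalPolyRing R y) := by
  rw [injective_iff_map_eq_zero]
  intro p hp
  have h1 : p.eval₂ R.subtype y = 0 := congrArg Subtype.val hp
  by_contra hne
  exact hy ⟨p, hne, by rw [Polynomial.aeval_def]; exact h1⟩

/-- `R[X] ≃+* R[y]` for transcendental `y`. -/
noncomputable def polyRingEquiv (R : Subring Ω) {y : Ω} (hy : Transcendental R y) :
    Polynomial R ≃+* polyRing R y :=
  RingEquiv.ofBijective (evalPolyRing R y)
    ⟨evalPolyRing_injective R hy, evalPolyRing_surjective R y⟩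

theorem polyRingEquiv_C (R : Subring Ω) {y : Ω} (hy : Transcendental R y) (r : R) :
    ((polyRingEquiv R hy (C r) : polyRing R y) : Ω) = r := by
  show (C r).eval₂ R.subtype y = r
  simp

theorem polyRingEquiv_X (R : Subring Ω) {y : Ω} (hy : Transcendental R y) :
    ((polyRingEquiv R hy X : polyRing R y) : Ω) = y := by
  show (X : Polynomial R).eval₂ R.subtype y = y
  simp

/-! ### Lemma M in `R[y]` -/

/-- **Lemma M** (subring form): `R` integrally closed, `w` prime in `R`, `y` transcendental over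
`R`.  If `w·f` and `y^k·f` are integral over `R[y]`, so is `f`. -/
theorem isIntegral_of_mul_of_pow_mul {R : Subring Ω} [IsIntegrallyClosed R] {w y : Ω}
    (hwR : w ∈ R) (hw : Prime (⟨w, hwR⟩ : R)) (hy : Transcendental R y) {f : Ω} (k : ℕ)
    (hwf : IsIntegral (polyRing R y) (w * f)) (hyf : IsIntegral (polyRing R y) (y ^ k * f)) :
    IsIntegral (polyRing R y) f := by
  set Λ := polyRing R y with hΛ
  let e := polyRingEquiv R hy
  haveI : IsIntegrallyClosed Λ := IsIntegrallyClosed.of_equiv e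
  have hinj : Function.Injective (algebraMap Λ Ω) := Subtype.val_injective
  letI : Algebra (FractionRing Λ) Ω := (IsFractionRing.lift (K := FractionRing Λ) hinj).toAlgebra
  haveI : IsScalarTower Λ (FractionRing Λ) Ω :=
    IsScalarTower.of_algebraMap_eq fun a => (IsFractionRing.lift_algebraMap hinj a).symm
  -- the elements `w`, `y ^ k` of `Λ`
  let w' : Λ := e (C ⟨w, hwR⟩)
  let t' : Λ := e (X ^ k)
  have hw' : (w' : Ω) = w := polyRingEquiv_C R hy ⟨w, hwR⟩
  have ht' : (t' : Ω) = y ^ k := by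
    show ((e (X ^ k) : Λ) : Ω) = y ^ k
    rw [map_pow]
    show ((e X : Λ) : Ω) ^ k = y ^ k
    rw [polyRingEquiv_X R hy]
  have hprime : Prime w' := by
    have : Prime (C (⟨w, hwR⟩ : R)) := Polynomial.prime_C_iff.mpr hw
    exact (MulEquiv.prime_iff e.toMulEquiv).mpr this
  have hndvd : ¬ w' ∣ t' := by
    intro h
    have h1 : C (⟨w, hwR⟩ : R) ∣ (X ^ k : Polynomial R) := by
      have := (map_dvd_iff e).mp h
      exact this
    rw [Polynomial.C_dvd_iff_dvd_coeff] at h1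
    have h2 := h1 k
    rw [Polynomial.coeff_X_pow, if_pos rfl] at h2
    exact hw.not_isUnit (isUnit_of_dvd_one h2)
  refine Fermat.Agent.S18.H393.isIntegral_of_isIntegral_mul' (FractionRing Λ) hprime hndvd
    (f := f) ?_ ?_
  · show IsIntegral Λ ((w' : Ω) * f)
    rw [hw']; exact hwf
  · show IsIntegral Λ ((t' : Ω) * f)
    rw [ht']; exact hyf

/-! ### The transfer theorem -/

/-- **QEP transfer** from the coordinate `x` to the coordinate `y`. -/
theorem qep_transfer (Fc : Subfield Ω) (R V : Subring Ω) [IsIntegrallyClosed R] {w x y : Ω}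
    (hwR : w ∈ R) (hw : Prime (⟨w, hwR⟩ : R)) (hwF : w ∈ Fc) (hyF : y ∈ Fc)
    (hy : Transcendental R y)
    (h1 : ∀ b, IsIntegral (polyRing R y) b →
      ∃ D : ℕ, IsIntegral (polyRing R x) ((y⁻¹) ^ D * b) ∧ (y⁻¹) ^ D ∈ V)
    (h2 : ∀ c, IsIntegral (polyRing R x) c →
      ∃ k : ℕ, ∀ k' : ℕ, k ≤ k' → IsIntegral (polyRing R y) (y ^ k' * c))
    (qepx : ∀ b ∈ chart Fc R x, b * w⁻¹ ∈ V → b * w⁻¹ ∈ chart Fc R x) :
    ∀ b ∈ chart Fc R y, b * w⁻¹ ∈ V → b * w⁻¹ ∈ chart Fc R y := by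
  rintro b ⟨hbF, hbint⟩ hbV
  have hw0 : w ≠ 0 := fun h => hw.ne_zero (Subtype.ext h)
  have hy0 : y ≠ 0 := by
    rintro rfl
    exact hy (isAlgebraic_zero)
  obtain ⟨D, hD, hDV⟩ := h1 b hbint
  have hb' : (y⁻¹) ^ D * b ∈ chart Fc R x :=
    ⟨Fc.mul_mem (Fc.pow_mem (Fc.inv_mem hyF) _) hbF, hD⟩
  have hb'V : (y⁻¹) ^ D * b * w⁻¹ ∈ V := by
    rw [mul_assoc]; exact V.mul_mem hDV hbV
  obtain ⟨-, hc⟩ := qepx _ hb' hb'V
  obtain ⟨k, hk⟩ := h2 _ hc
  have hk' := hk (k + D) (Nat.le_add_right k D)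
  have heq : y ^ (k + D) * ((y⁻¹) ^ D * b * w⁻¹) = y ^ k * (b * w⁻¹) := by
    rw [pow_add, inv_pow]
    field_simp
  rw [heq] at hk'
  refine ⟨Fc.mul_mem hbF (Fc.inv_mem hwF), ?_⟩
  refine isIntegral_of_mul_of_pow_mul hwR hw hy k ?_ hk'
  have : w * (b * w⁻¹) = b := by field_simp
  rw [this]; exact hbint

/-- **QEP(x) ⟹ QEP(x⁻¹).** -/
theorem qep_inv (Fc : Subfield Ω) (R V : Subring Ω) [IsIntegrallyClosed R] {w x : Ω}
    (hwR : w ∈ R) (hw : Prime (⟨w, hwR⟩ : R)) (hwF : w ∈ Fc) (hxF : x ∈ Fc) (hxV : x ∈ V)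
    (hx : Transcendental R x⁻¹)
    (qepx : ∀ b ∈ chart Fc R x, b * w⁻¹ ∈ V → b * w⁻¹ ∈ chart Fc R x) :
    ∀ b ∈ chart Fc R x⁻¹, b * w⁻¹ ∈ V → b * w⁻¹ ∈ chart Fc R x⁻¹ := by
  have hx0 : x ≠ 0 := by
    rintro rfl
    rw [inv_zero] at hx
    exact hx isAlgebraic_zero
  refine qep_transfer Fc R V hwR hw hwF (Fc.inv_mem hxF) hx ?_ ?_ qepx
  · intro b hb
    have hxy : x⁻¹ * x ^ 1 ∈ polyRing R x := by
      rw [pow_one, inv_mul_cancel₀ hx0]; exact Subring.one_mem _
    obtain ⟨k, hk⟩ := exists_pow_mul_isIntegral hxy hb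
    refine ⟨k, ?_, ?_⟩
    · rw [inv_inv]; exact hk k le_rfl
    · rw [inv_inv]; exact V.pow_mem hxV _
  · intro c hc
    have hxy : x * (x⁻¹) ^ 1 ∈ polyRing R x⁻¹ := by
      rw [pow_one, mul_inv_cancel₀ hx0]; exact Subring.one_mem _
    exact exists_pow_mul_isIntegral hxy hc

/-- **QEP(x) ⟹ QEP(t)** for `t` integral over `R[x]` with `x · t^a ∈ R[t]`. -/
theorem qep_of_integral (Fc : Subfield Ω) (R V : Subring Ω) [IsIntegrallyClosed R] {w x t : Ω}
    (hwR : w ∈ R) (hw : Prime (⟨w, hwR⟩ : R)) (hwF : w ∈ Fc) (htF : t ∈ Fc)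
    (ht : Transcendental R t) (hint : IsIntegral (polyRing R x) t) {a : ℕ}
    (hxt : x * t ^ a ∈ polyRing R t)
    (qepx : ∀ b ∈ chart Fc R x, b * w⁻¹ ∈ V → b * w⁻¹ ∈ chart Fc R x) :
    ∀ b ∈ chart Fc R t, b * w⁻¹ ∈ V → b * w⁻¹ ∈ chart Fc R t := by
  refine qep_transfer Fc R V hwR hw hwF htF ht ?_ ?_ qepx
  · intro b hb
    exact ⟨0, by simpa using isIntegral_polyRing_trans hint hb, by simp⟩
  · intro c hc
    exact exists_pow_mul_isIntegral hxt hc

end Fermat.Agent.S18.H24
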